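import Fermat.Agent.Schur.Basic
import Mathlib.Data.Fintype.Pi
import Mathlib.Data.Fintype.Prod
import Mathlib.Data.Finset.Prod
import Mathlib.Data.Fintype.BigOperators
import Mathlib.Combinatorics.Pigeonhole
import Mathlib.Algebra.BigOperators.Ring.Finset
import Mathlib.Algebra.Order.BigOperators.Group.Finset
import Mathlib.Tactic.Ring
import Mathlib.Tactic.Linarith

/-!
# Many monochromatic solutions of `x + y + e = z`

Ramsey's triangle in the differences of a random tuple: if the numbers in `[θ, ℓ)` have `r` colours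
and `ℓ` is large against `θ`, then a positive proportion of the pairs `(x, y)` has `x`, `y` and
`x + y + e` of one colour.
-/

set_option autoImplicit false

namespace FA.SchurPrimes

open Finset
open FA.Schur (bound)

/-- A triangle of one colour among the differences. -/
theorem exists_triangle {κ : Type*} [DecidableEq κ] (c : ℕ → κ) : ∀ (k : ℕ) (C : Finset κ)
    (S : Finset ℕ), C.card ≤ k → bound k < S.card → (∀ a ∈ S, ∀ b ∈ S, a < b → c (b - a) ∈ C) →
      ∃ a ∈ S, ∃ b ∈ S, ∃ d ∈ S, a < b ∧ b < d ∧ c (b - a) = c (d - a) ∧ c (d - b) = c (d - a) := by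
  intro k
  induction k with
  | zero =>
    intro C S hC hcard hS
    obtain ⟨a, ha, b, hb, hne⟩ := one_lt_card.1 (show 1 < S.card from hcard)
    rw [Nat.le_zero, card_eq_zero] at hC
    subst hC
    rcases Nat.lt_or_gt_of_ne hne with h | h
    · exact absurd (hS a ha b hb h) (notMem_empty _)
    · exact absurd (hS b hb a ha h) (notMem_empty _)
  | succ k ih =>
    intro C S hC hcard hS
    have hne : S.Nonempty := card_pos.1 (by omega)
    obtain ⟨v, hv⟩ : ∃ v, v = S.min' hne := ⟨_, rfl⟩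
    have hvS : v ∈ S := hv ▸ min'_mem S hne
    have hvlt : ∀ b ∈ S.erase v, v < b := fun b hb => lt_of_le_of_ne
      (hv ▸ min'_le S b (mem_erase.1 hb).2) (Ne.symm (mem_erase.1 hb).1)
    have hmaps : ∀ b ∈ S.erase v, c (b - v) ∈ C := fun b hb =>
      hS v hvS b (mem_erase.1 hb).2 (hvlt b hb)
    have hlt : C.card * bound k < (S.erase v).card := by
      rw [card_erase_of_mem hvS]
      have h1 : C.card * bound k ≤ (k + 1) * bound k := Nat.mul_le_mul_right _ hC
      have h2 : bound (k + 1) = (k + 1) * bound k + 1 := rfl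
      omega
    obtain ⟨i, hi, hbig⟩ := exists_lt_card_fiber_of_mul_lt_card_of_maps_to hmaps hlt
    by_cases hedge : ∃ a ∈ (S.erase v).filter (fun b => c (b - v) = i),
        ∃ b ∈ (S.erase v).filter (fun b => c (b - v) = i), a < b ∧ c (b - a) = i
    · obtain ⟨a, ha, b, hb, hab, hi'⟩ := hedge
      rw [mem_filter] at ha hb
      exact ⟨v, hvS, a, (mem_erase.1 ha.1).2, b, (mem_erase.1 hb.1).2, hvlt a ha.1, hab,
        ha.2.trans hb.2.symm, hi'.trans hb.2.symm⟩
    · obtain ⟨a, ha, b, hb, d, hd, h⟩ := ih (C.erase i)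
        ((S.erase v).filter fun b => c (b - v) = i) (by rw [card_erase_of_mem hi]; omega) hbig
        fun a ha b hb hab => mem_erase.2 ⟨fun h => hedge ⟨a, ha, b, hb, hab, h⟩,
          hS a (mem_erase.1 (mem_filter.1 ha).1).2 b (mem_erase.1 (mem_filter.1 hb).1).2 hab⟩
      exact ⟨a, (mem_erase.1 (mem_filter.1 ha).1).2, b, (mem_erase.1 (mem_filter.1 hb).1).2, d,
        (mem_erase.1 (mem_filter.1 hd).1).2, h⟩

/-- Tuples with two points at a distance of at most `D`. -/
theorem card_near_le {R ℓ D : ℕ} {a b : Fin R} (hab : a ≠ b) :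
    ((univ : Finset (Fin R → Fin ℓ)).filter fun t =>
      (t a : ℕ) ≤ t b + D ∧ (t b : ℕ) ≤ t a + D).card ≤ (2 * D + 1) * ℓ ^ (R - 1) := by
  refine (card_le_card_of_injOn (t := range (2 * D + 1) ×ˢ
      (univ : Finset ({j // j ≠ b} → Fin ℓ)))
    (fun t => (((t b : ℕ) + D - t a), fun j => t j)) (fun t ht => ?_) ?_).trans (le_of_eq ?_)
  · simp only [mem_coe, mem_filter, mem_univ, true_and] at ht
    simp only [mem_coe, mem_product, mem_range, mem_univ, and_true]
    omega
  · intro t ht t' ht' he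
    simp only [mem_coe, mem_filter, mem_univ, true_and] at ht ht'
    simp only [Prod.mk.injEq] at he
    have hj : ∀ j, j ≠ b → t j = t' j := fun j h => congrFun he.2 ⟨j, h⟩
    funext j
    by_cases h : j = b
    · subst h
      have e1 : (t a : ℕ) = t' a := congrArg Fin.val (hj a hab)
      refine Fin.ext ?_
      omega
    · exact hj j h
  · rw [card_product, card_range, card_univ, Fintype.card_fun, Fintype.card_fin,
      Fintype.card_subtype_compl, Fintype.card_fin, Fintype.card_subtype_eq]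

/-- Tuples with two given differences. -/
theorem card_two_gaps_le {R ℓ : ℕ} {a b d : Fin R} (hab : a ≠ b) (hbd : b ≠ d) (had : a ≠ d)
    (u v : ℕ) : ((univ : Finset (Fin R → Fin ℓ)).filter fun t =>
      (t b : ℕ) = t a + u ∧ (t d : ℕ) = t b + v).card ≤ ℓ ^ (R - 2) := by
  refine (card_le_card_of_injOn (t := (univ : Finset ({j // ¬ (j = b ∨ j = d)} → Fin ℓ)))
    (fun t j => t j) (fun t _ => mem_univ _) ?_).trans (le_of_eq ?_)
  · intro t ht t' ht' he
    simp only [mem_coe, mem_filter, mem_univ, true_and] at ht ht'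
    have hj : ∀ j, ¬ (j = b ∨ j = d) → t j = t' j := fun j h => congrFun he ⟨j, h⟩
    have e1 : (t a : ℕ) = t' a :=
      congrArg Fin.val (hj a fun h => h.elim hab had)
    funext j
    by_cases h : j = b ∨ j = d
    · rcases h with rfl | rfl <;> refine Fin.ext ?_ <;> omega
    · exact hj j h
  · rw [card_univ, Fintype.card_fun, Fintype.card_fin, Fintype.card_subtype_compl, Fintype.card_fin]
    congr 2
    rw [Fintype.card_subtype, show (univ.filter fun j : Fin R => j = b ∨ j = d) = {b, d} by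
      ext j; simp, card_pair hbd]

/-- **Supersaturation.** -/
theorem card_monochromatic_pairs {r ℓ θ e : ℕ} (χ : ℕ → Fin r)
    (hθ : 2 * (bound r + 1) ^ 2 * (2 * (θ + e) + 1) ≤ ℓ) :
    ℓ ^ 2 ≤ 2 * (bound r + 1) ^ 3 * (((range ℓ) ×ˢ (range ℓ)).filter fun z : ℕ × ℕ =>
      θ ≤ z.1 ∧ θ ≤ z.2 ∧ z.1 + z.2 + e < ℓ ∧ χ z.1 = χ (z.1 + z.2 + e) ∧
        χ z.2 = χ (z.1 + z.2 + e)).card := by
  obtain ⟨R, hR⟩ : ∃ R, R = bound r + 1 := ⟨_, rfl⟩
  rw [← hR] at hθ ⊢
  obtain ⟨P, hP⟩ : ∃ P, P = ((range ℓ) ×ˢ (range ℓ)).filter fun z : ℕ × ℕ =>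
      θ ≤ z.1 ∧ θ ≤ z.2 ∧ z.1 + z.2 + e < ℓ ∧ χ z.1 = χ (z.1 + z.2 + e) ∧
        χ z.2 = χ (z.1 + z.2 + e) := ⟨_, rfl⟩
  rw [← hP]
  have hℓ : 0 < ℓ := lt_of_lt_of_le (Nat.mul_pos (Nat.mul_pos two_pos
    (pow_pos (by omega) 2)) (Nat.succ_pos _)) hθ
  obtain ⟨bad, hbad⟩ : ∃ bad : Finset (Fin R → Fin ℓ),
      bad = ((univ : Finset (Fin R × Fin R)).filter fun i => i.1 ≠ i.2).biUnion fun i =>
        univ.filter fun t => (t i.1 : ℕ) ≤ t i.2 + (θ + e) ∧ (t i.2 : ℕ) ≤ t i.1 + (θ + e) :=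
    ⟨_, rfl⟩
  obtain ⟨good, hgood⟩ : ∃ good : Finset (Fin R → Fin ℓ),
      good = ((univ : Finset (Fin R × Fin R × Fin R)).filter fun i =>
          i.1 ≠ i.2.1 ∧ i.2.1 ≠ i.2.2 ∧ i.1 ≠ i.2.2).biUnion fun i =>
        P.biUnion fun z => univ.filter fun t =>
          (t i.2.1 : ℕ) = t i.1 + (z.1 + e) ∧ (t i.2.2 : ℕ) = t i.2.1 + (z.2 + e) := ⟨_, rfl⟩
  have hcover : (univ : Finset (Fin R → Fin ℓ)) ⊆ bad ∪ good := by
    intro t _
    rw [mem_union, or_iff_not_imp_left]
    intro hb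
    have hsep : ∀ i j, i ≠ j → (t i : ℕ) + (θ + e) < t j ∨ (t j : ℕ) + (θ + e) < t i := by
      intro i j hij
      by_contra hn
      refine hb (hbad ▸ mem_biUnion.2 ⟨(i, j), mem_filter.2 ⟨mem_univ _, hij⟩, ?_⟩)
      simp only [mem_filter, mem_univ, true_and]
      omega
    have hinj : Function.Injective fun i => (t i : ℕ) := fun i j h => by
      by_contra hij
      have := hsep i j hij
      simp only at h
      omega
    have hcard : bound r < (univ.image fun i => (t i : ℕ)).card := by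
      rw [card_image_of_injective _ hinj, card_univ, Fintype.card_fin]
      omega
    obtain ⟨a, ha, b, hb', d, hd, hab, hbd, h1, h2⟩ := exists_triangle
      (fun m => χ (m - e)) r univ (univ.image fun i => (t i : ℕ))
      (by rw [card_univ, Fintype.card_fin]) hcard fun _ _ _ _ _ => mem_univ _
    obtain ⟨i, -, rfl⟩ := mem_image.1 ha
    obtain ⟨j, -, rfl⟩ := mem_image.1 hb'
    obtain ⟨k, -, rfl⟩ := mem_image.1 hd
    have hij : i ≠ j := fun h => by subst h; omega
    have hjk : j ≠ k := fun h => by subst h; omega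
    have hik : i ≠ k := fun h => by subst h; omega
    have s1 := hsep i j hij
    have s2 := hsep j k hjk
    have hk := (t k).isLt
    refine hgood ▸ mem_biUnion.2 ⟨(i, j, k), mem_filter.2 ⟨mem_univ _, hij, hjk, hik⟩,
      mem_biUnion.2 ⟨((t j : ℕ) - t i - e, (t k : ℕ) - t j - e), ?_,
        mem_filter.2 ⟨mem_univ _, by simp only; omega, by simp only; omega⟩⟩⟩
    rw [hP, mem_filter, mem_product, mem_range, mem_range]
    have e3 : (t j : ℕ) - t i - e + ((t k : ℕ) - t j - e) + e = (t k : ℕ) - t i - e := by omega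
    simp only [e3]
    exact ⟨⟨by omega, by omega⟩, by omega, by omega, by omega, h1, h2⟩
  have hbadcard : bad.card ≤ R ^ 2 * ((2 * (θ + e) + 1) * ℓ ^ (R - 1)) := by
    rw [hbad]
    refine card_biUnion_le.trans ((sum_le_card_nsmul _ _ _ fun i hi =>
      card_near_le (mem_filter.1 hi).2).trans ?_)
    rw [smul_eq_mul]
    refine Nat.mul_le_mul_right _ ((card_filter_le _ _).trans (le_of_eq ?_))
    rw [card_univ, Fintype.card_prod, Fintype.card_fin, sq]
  have hgoodcard : good.card ≤ R ^ 3 * (P.card * ℓ ^ (R - 2)) := by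
    rw [hgood]
    refine card_biUnion_le.trans
      ((sum_le_card_nsmul _ _ (P.card * ℓ ^ (R - 2)) fun i hi => ?_).trans ?_)
    · obtain ⟨-, h1, h2, h3⟩ := mem_filter.1 hi
      refine card_biUnion_le.trans ((sum_le_card_nsmul _ _ _ fun z _ =>
        card_two_gaps_le h1 h2 h3 _ _).trans ?_)
      rw [smul_eq_mul]
    · rw [smul_eq_mul]
      refine Nat.mul_le_mul_right _ ((card_filter_le _ _).trans (le_of_eq ?_))
      rw [card_univ, Fintype.card_prod, Fintype.card_prod, Fintype.card_fin]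
      ring
  have htot : ℓ ^ R ≤ bad.card + good.card := by
    refine le_trans (le_of_eq ?_) ((card_le_card hcover).trans (card_union_le _ _))
    rw [card_univ, Fintype.card_fun, Fintype.card_fin, Fintype.card_fin]
  have hR2 : 2 ≤ R := by
    rcases Nat.eq_zero_or_pos r with rfl | hr
    · exact (χ 0).elim0
    · obtain ⟨k, rfl⟩ : ∃ k, r = k + 1 := ⟨r - 1, by omega⟩
      have e : bound (k + 1) = (k + 1) * bound k + 1 := rfl
      omega
  obtain ⟨q, hq⟩ : ∃ q, R = q + 2 := ⟨R - 2, by omega⟩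
  have e1 : ℓ ^ (R - 1) = ℓ ^ q * ℓ := by rw [show R - 1 = q + 1 by omega, pow_succ]
  have e2 : ℓ ^ R = ℓ ^ q * ℓ * ℓ := by rw [show R = q + 1 + 1 by omega, pow_succ, pow_succ]
  rw [e1] at hbadcard
  rw [show R - 2 = q by omega] at hgoodcard
  refine Nat.le_of_mul_le_mul_left ?_ (pow_pos hℓ q)
  have h5 := Nat.mul_le_mul_left (ℓ ^ q * ℓ) hθ
  nlinarith

end FA.SchurPrimes
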