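import Fermat.Agent.DenseThreePrimes.Transference

/-!
# One Bohr set for all the colours

Transference for the solutions of `x + y + e = z` in several functions below one majorant: they
are smoothed over one set, on which `e (b / M)` is close to `1`, so intervals survive.
-/

set_option autoImplicit false

noncomputable section

namespace FA.SchurPrimes

open Finset
open FA.DenseThreePrimes (zchar zhat smooth setHat tripleCount)
open scoped Real ComplexConjugate

variable {M : ℕ} [NeZero M]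

theorem setHat_neg (B : Finset (ZMod M)) (r : ZMod M) : setHat B (-r) = conj (setHat B r) := by
  simp only [setHat, map_div₀, map_sum, map_natCast, DenseThreePrimes.conj_zchar, neg_mul]

theorem zhat_neg (f : ZMod M → ℝ) (r : ZMod M) : zhat f (-r) = conj (zhat f r) := by
  simp only [zhat, map_sum, map_mul, Complex.conj_ofReal, DenseThreePrimes.conj_zchar, neg_mul]

/-- The transform of a reflected function. -/
theorem zhat_reflect (f : ZMod M → ℝ) (a r : ZMod M) :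
    zhat (fun x => f (a - x)) r = zchar (r * a) * conj (zhat f r) := by
  rw [← zhat_neg, zhat, zhat, mul_sum]
  refine sum_nbij' (fun x => a - x) (fun x => a - x) (fun _ _ => mem_univ _) (fun _ _ => mem_univ _)
    (fun x _ => sub_sub_cancel a x) (fun x _ => sub_sub_cancel a x) fun x _ => ?_
  rw [mul_left_comm, ← DenseThreePrimes.zchar_add]
  ring_nf

/-- The solutions of `x + y + e = z`. -/
def schurCount (f : ZMod M → ℝ) (e : ZMod M) : ℝ := ∑ x, ∑ y, f x * f y * f (x + y + e)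

theorem schurCount_eq (f : ZMod M → ℝ) (e : ZMod M) :
    schurCount f e = tripleCount f f (fun x => f (-x)) (-e) := by
  refine sum_congr rfl fun x _ => sum_congr rfl fun y _ => congrArg _ (congrArg f ?_)
  abel

theorem smooth_sub_le {B : Finset (ZMod M)} (hB : B.Nonempty) {ν u : ZMod M → ℝ} {η : ℝ}
    (hclose : ∀ r, ‖zhat ν r - zhat u r‖ ≤ η * M) (x : ZMod M) :
    |smooth B ν x - smooth B u x| ≤ η * M / B.card := by
  have hB0 : (0 : ℝ) < B.card := Nat.cast_pos.2 hB.card_pos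
  have hM0 : (0 : ℝ) < M := Nat.cast_pos.2 (Nat.pos_of_ne_zero (NeZero.ne M))
  refine le_of_mul_le_mul_left ?_ hM0
  have e : ((M : ℝ) * |smooth B ν x - smooth B u x|) =
      ‖∑ r, (zhat ν r - zhat u r) * ((‖setHat B r‖ ^ 2 : ℝ) : ℂ) * zchar (-(r * x))‖ := by
    simp only [sub_mul, sum_sub_distrib, ← DenseThreePrimes.zhat_smooth,
      DenseThreePrimes.sum_zhat_mul]
    rw [← mul_sub, ← Complex.ofReal_sub, norm_mul, Complex.norm_natCast, Complex.norm_real,
      Real.norm_eq_abs]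
  rw [e]
  refine (norm_sum_le _ _).trans ?_
  refine (sum_le_sum (g := fun r => η * M * ‖setHat B r‖ ^ 2) fun r _ => ?_).trans ?_
  · rw [norm_mul, norm_mul, DenseThreePrimes.norm_zchar, mul_one, Complex.norm_real,
      Real.norm_eq_abs, abs_of_nonneg (sq_nonneg _)]
    exact mul_le_mul_of_nonneg_right (hclose r) (sq_nonneg _)
  · rw [← mul_sum, DenseThreePrimes.sum_norm_sq_setHat]
    refine le_of_eq ?_
    field_simp

/-- **The transference for the colours.** -/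
theorem exists_schur_transference {C ε : ℝ} (hC : 0 < C) (hε : 0 < ε) (hε1 : ε ≤ 1) (r : ℕ) :
    ∃ η : ℝ, 0 < η ∧ ∀ (M : ℕ) [NeZero M] (f : Fin r → ZMod M → ℝ) (ν u : ZMod M → ℝ),
      (∀ i x, 0 ≤ f i x ∧ f i x ≤ ν x) → (∀ x, 0 ≤ u x ∧ u x ≤ 1) →
      (∀ t, ‖zhat ν t - zhat u t‖ ≤ η * M) →
      (∀ i, ∑ t, ‖zhat (f i) t‖ ^ (5 / 2 : ℝ) ≤ C * (M : ℝ) ^ (5 / 2 : ℝ)) →
      ∃ B : Finset (ZMod M), B.Nonempty ∧ (∀ b ∈ B, ‖zchar b - 1‖ ≤ ε) ∧
        (∀ x, smooth B u x - ε ≤ smooth B ν x) ∧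
        ∀ i e, schurCount (smooth B (f i)) e ≤ schurCount (f i) e + ε * (M : ℝ) ^ 2 := by
  obtain ⟨δ, hδ⟩ : ∃ δ, δ = min (ε / 8) ((ε / (100 * C)) ^ 2) := ⟨_, rfl⟩
  have hδ0 : 0 < δ := hδ ▸ lt_min (by positivity) (by positivity)
  have hδ8 : δ ≤ ε / 8 := hδ ▸ min_le_left _ _
  have hδ1 : δ ≤ 1 := by linarith
  obtain ⟨K, hK⟩ : ∃ K, K = ⌈1 / δ⌉₊ := ⟨_, rfl⟩
  have hK1 : 1 / δ ≤ K := hK ▸ Nat.le_ceil _
  have hK0 : 0 < K := hK ▸ Nat.ceil_pos.2 (by positivity)
  have hK8 : 8 / (K : ℝ) ≤ 8 * δ := by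
    rw [div_le_iff₀ (Nat.cast_pos.2 hK0)]
    rw [div_le_iff₀ hδ0] at hK1
    linarith
  obtain ⟨s, hs⟩ : ∃ s, s = ⌈(r : ℝ) * C / δ ^ (5 / 2 : ℝ)⌉₊ + 1 := ⟨_, rfl⟩
  refine ⟨min 1 (ε / (K : ℝ) ^ s), lt_min one_pos (by positivity),
    fun M _ f ν u hf hu hclose hres => ?_⟩
  classical
  have hM0 : (0 : ℝ) < M := Nat.cast_pos.2 (Nat.pos_of_ne_zero (NeZero.ne M))
  have htop : ∀ i t, ‖zhat (f i) t‖ ≤ 2 * M := fun i t => by
    refine (DenseThreePrimes.norm_zhat_le (fun x => (hf i x).1) t).trans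
      ((sum_le_sum fun x _ => (hf i x).2).trans ?_)
    have h1 := (Complex.abs_re_le_norm _).trans (hclose 0)
    simp only [zhat, zero_mul, DenseThreePrimes.zchar_zero, mul_one, Complex.sub_re, Complex.re_sum,
      Complex.ofReal_re] at h1
    have h2 : ∑ x, u x ≤ M := (sum_le_card_nsmul _ _ 1 fun x _ => (hu x).2).trans_eq (by
      rw [nsmul_eq_mul, mul_one, card_univ, ZMod.card])
    nlinarith [abs_le.1 h1, min_le_left 1 (ε / (K : ℝ) ^ s)]
  obtain ⟨S, hS⟩ : ∃ S : Finset (ZMod M), S = univ.filter fun t =>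
      ∃ i, δ * M ≤ ‖zhat (f i) t‖ := ⟨_, rfl⟩
  have hScard : (insert 1 S).card ≤ s := by
    refine (card_insert_le _ _).trans ?_
    rw [hs, Nat.add_le_add_iff_right, ← Nat.cast_le (α := ℝ)]
    refine le_trans ?_ (Nat.le_ceil _)
    rw [le_div_iff₀ (by positivity)]
    refine le_of_mul_le_mul_right ?_ (show (0 : ℝ) < (M : ℝ) ^ (5 / 2 : ℝ) by positivity)
    rw [mul_assoc, ← Real.mul_rpow hδ0.le hM0.le, ← nsmul_eq_mul]
    refine ((card_nsmul_le_sum S (fun t => ∑ i, ‖zhat (f i) t‖ ^ (5 / 2 : ℝ)) _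
      fun t ht => ?_).trans
      (sum_le_sum_of_subset_of_nonneg (subset_univ S) fun t _ _ => by positivity)).trans ?_
    · rw [hS, mem_filter] at ht
      obtain ⟨i, hi⟩ := ht.2
      exact le_trans (Real.rpow_le_rpow (by positivity) hi (by norm_num))
        (single_le_sum (f := fun i => ‖zhat (f i) t‖ ^ (5 / 2 : ℝ))
          (fun j _ => by positivity) (mem_univ i))
    · rw [sum_comm, mul_assoc]
      refine (sum_le_card_nsmul _ _ _ fun i _ => hres i).trans (le_of_eq ?_)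
      rw [card_univ, Fintype.card_fin, nsmul_eq_mul]
  obtain ⟨B, hB, hBcard, hBchar⟩ := DenseThreePrimes.exists_bohr (insert 1 S) hK0
  have hB0 : (0 : ℝ) < B.card := Nat.cast_pos.2 hB.card_pos
  refine ⟨B, hB, fun b hb => ?_, fun x => ?_, fun i e => ?_⟩
  · have h := hBchar 1 (mem_insert_self _ _) b hb
    rw [one_mul] at h
    linarith
  · have h := (abs_le.1 (smooth_sub_le hB hclose x)).1
    have h2 : min 1 (ε / (K : ℝ) ^ s) * M / B.card ≤ ε := by
      have hK' : (1 : ℝ) ≤ K := Nat.one_le_cast.2 hK0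
      rw [div_le_iff₀ hB0]
      calc min 1 (ε / (K : ℝ) ^ s) * M
          ≤ ε / (K : ℝ) ^ s * ((K : ℝ) ^ (insert 1 S).card * B.card) := by
            refine mul_le_mul (min_le_right _ _) hBcard hM0.le (by positivity)
        _ ≤ ε / (K : ℝ) ^ s * ((K : ℝ) ^ s * B.card) := by gcongr
        _ = ε * B.card := by field_simp
    linarith
  obtain ⟨β, hβ⟩ : ∃ β : ZMod M → ℝ, β = fun t => ‖setHat B t‖ ^ 2 := ⟨_, rfl⟩
  have hβ1 : ∀ t, 0 ≤ β t ∧ β t ≤ 1 := fun t => by
    rw [hβ]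
    refine ⟨sq_nonneg _, pow_le_one₀ (norm_nonneg _) ?_⟩
    rw [setHat, norm_div, Complex.norm_natCast, div_le_one hB0]
    exact (norm_sum_le _ _).trans_eq (by simp [DenseThreePrimes.norm_zchar])
  have hβS : ∀ t ∈ S, 1 - β t ≤ 16 * δ := fun t ht => by
    have h1 : ‖setHat B t - 1‖ ≤ 8 * δ := by
      rw [setHat, div_sub_one (Nat.cast_ne_zero.2 hB.card_pos.ne'), norm_div, Complex.norm_natCast,
        div_le_iff₀ hB0, show (B.card : ℂ) = ∑ _b ∈ B, (1 : ℂ) by simp, ← sum_sub_distrib]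
      refine (norm_sum_le _ _).trans ((sum_le_card_nsmul _ _ (8 * δ) fun b hb => ?_).trans_eq
        (by rw [nsmul_eq_mul, mul_comm]))
      exact (hBchar t (mem_insert_of_mem ht) b hb).trans hK8
    have h2 := norm_sub_norm_le (1 : ℂ) (setHat B t)
    rw [norm_one, norm_sub_rev] at h2
    rw [hβ]
    nlinarith [norm_nonneg (setHat B t), mul_self_nonneg (1 - ‖setHat B t‖)]
  have hneg : ∀ (g : ZMod M → ℝ) t, zhat (fun x => g (-x)) t = conj (zhat g t) := fun g t => by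
    have h := zhat_reflect g 0 t
    simpa [DenseThreePrimes.zchar_zero] using h
  have hdiff : (M : ℝ) * (schurCount (smooth B (f i)) e - schurCount (f i) e) ≤
      ∑ t, ‖zhat (f i) t‖ ^ 3 * (1 - β t ^ 3) := by
    refine (le_abs_self _).trans ?_
    rw [← Real.norm_eq_abs, ← Complex.norm_real]
    push_cast
    rw [schurCount_eq, schurCount_eq, mul_sub, DenseThreePrimes.mul_tripleCount,
      DenseThreePrimes.mul_tripleCount, ← sum_sub_distrib]
    refine (norm_sum_le _ _).trans (le_of_eq (sum_congr rfl fun t _ => ?_))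
    simp only [hneg, DenseThreePrimes.zhat_smooth, map_mul, Complex.conj_ofReal]
    rw [show ∀ a b c z : ℂ, ∀ t : ℂ, a * t * (b * t) * (c * t) * z - a * b * c * z =
      a * b * c * z * (t ^ 3 - 1) from fun a b c z t => by ring, norm_mul, norm_mul, norm_mul,
      norm_mul, Complex.norm_conj, DenseThreePrimes.norm_zchar, mul_one, hβ]
    simp only
    rw [← Complex.ofReal_pow, ← Complex.ofReal_one, ← Complex.ofReal_sub, Complex.norm_real,
      Real.norm_eq_abs, abs_sub_comm, abs_of_nonneg (sub_nonneg.2 (pow_le_one₀ (sq_nonneg _)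
        (by have := (hβ1 t).2; rwa [hβ] at this)))]
    ring
  have hbound : ∀ t, ‖zhat (f i) t‖ ^ 3 * (1 - β t ^ 3) ≤
      100 * √δ * √(M : ℝ) * ‖zhat (f i) t‖ ^ (5 / 2 : ℝ) := by
    intro t
    obtain ⟨hb0, hb1⟩ := hβ1 t
    have hb3 : 1 - β t ^ 3 ≤ 3 * (1 - β t) := by
      nlinarith [mul_nonneg (sq_nonneg (1 - β t)) (show 0 ≤ 2 + β t by linarith)]
    have hb31 : 1 - β t ^ 3 ≤ 1 := by have := pow_nonneg hb0 3; linarith
    have hb30 : 0 ≤ 1 - β t ^ 3 := sub_nonneg.2 (pow_le_one₀ hb0 hb1)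
    have h52 : 0 ≤ √δ * √(M : ℝ) * ‖zhat (f i) t‖ ^ (5 / 2 : ℝ) := by positivity
    by_cases ht : t ∈ S
    · have h2 : √(2 * M) ≤ 2 * √(M : ℝ) := by
        rw [Real.sqrt_le_left (by positivity), mul_pow, Real.sq_sqrt hM0.le]
        linarith
      have h3 : δ ≤ √δ := Real.le_sqrt_of_sq_le (by nlinarith)
      refine (mul_le_mul (DenseThreePrimes.cube_le_of_le (norm_nonneg _) (htop i t))
        (hb3.trans (mul_le_mul_of_nonneg_left (hβS t ht) (by norm_num))) hb30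
        (by positivity)).trans ?_
      calc √(2 * (M : ℝ)) * ‖zhat (f i) t‖ ^ (5 / 2 : ℝ) * (3 * (16 * δ))
          ≤ 2 * √(M : ℝ) * ‖zhat (f i) t‖ ^ (5 / 2 : ℝ) * (3 * (16 * √δ)) := by gcongr
        _ ≤ _ := by linarith
    · refine (mul_le_of_le_one_right (pow_nonneg (norm_nonneg _) 3) hb31).trans
        ((DenseThreePrimes.cube_le_of_le (y := δ * M) (norm_nonneg _) ?_).trans ?_)
      · by_contra hlt
        exact ht (hS ▸ mem_filter.2 ⟨mem_univ t, i, (not_le.1 hlt).le⟩)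
      · rw [Real.sqrt_mul hδ0.le]
        linarith
  have hsqM : √(M : ℝ) * (M : ℝ) ^ (5 / 2 : ℝ) = (M : ℝ) * (M : ℝ) ^ 2 := by
    rw [Real.sqrt_eq_rpow, ← Real.rpow_add hM0, ← pow_succ', ← Real.rpow_natCast]
    norm_num
  have hfin : ∑ t, ‖zhat (f i) t‖ ^ 3 * (1 - β t ^ 3) ≤ (M : ℝ) * (ε * (M : ℝ) ^ 2) := by
    refine (sum_le_sum fun t _ => hbound t).trans ?_
    rw [← mul_sum]
    have hδε : 100 * C * √δ ≤ ε := by
      have h1 : √δ ≤ ε / (100 * C) := by
        rw [Real.sqrt_le_left (by positivity), hδ]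
        exact min_le_right _ _
      rwa [le_div_iff₀ (by positivity), mul_comm] at h1
    calc 100 * √δ * √(M : ℝ) * ∑ t, ‖zhat (f i) t‖ ^ (5 / 2 : ℝ)
        ≤ 100 * √δ * √(M : ℝ) * (C * (M : ℝ) ^ (5 / 2 : ℝ)) :=
          mul_le_mul_of_nonneg_left (hres i) (by positivity)
      _ = 100 * C * √δ * (√(M : ℝ) * (M : ℝ) ^ (5 / 2 : ℝ)) := by ring
      _ ≤ ε * ((M : ℝ) * (M : ℝ) ^ 2) := by
          rw [hsqM]
          exact mul_le_mul_of_nonneg_right hδε (by positivity)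
      _ = _ := by ring
  linarith [le_of_mul_le_mul_left (hdiff.trans hfin) hM0]

end FA.SchurPrimes
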