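import Fermat.Agent.DenseThreePrimes.Main
import Fermat.Agent.SchurPrimes.Supersaturation
import Fermat.Agent.SchurPrimes.Transference
import Mathlib.NumberTheory.Bertrand

/-!
# Schur's theorem in the shifted primes

For a colouring of the numbers up to `N`, the weights of the primes `Q x + a` of each colour are
smoothed over one Bohr set; some colour then has density above `1 / (2 r)` at each interior point,
and the monochromatic solutions of `x + y + e = z` among these colours come back to the primes.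
-/

set_option autoImplicit false

noncomputable section

namespace FA.SchurPrimes

open Finset Filter
open FA.Schur (bound)
open FA.DenseThreePrimes (zchar zhat smooth trickWeight trickWeight_nonneg)
open FA.ThreePrimes (eAdd geomSum nearDist)
open scoped Real

/-- The weights of one colour on `1, …, L` inside `ZMod M`. -/
def colourFun {r : ℕ} (Q a L : ℕ) (col : ℕ → Fin r) {M : ℕ} (i : Fin r) (x : ZMod M) : ℝ :=
  if x.val ∈ Icc 1 L ∧ col (Q * x.val + a) = i then trickWeight Q a x.val else 0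

/-- The weights on `1, …, L` inside `ZMod M`. -/
def intervalWeight (Q a L : ℕ) {M : ℕ} (x : ZMod M) : ℝ :=
  if x.val ∈ Icc 1 L then trickWeight Q a x.val else 0

theorem colourFun_nonneg {r : ℕ} (Q a L : ℕ) (col : ℕ → Fin r) {M : ℕ} (i : Fin r) (x : ZMod M) :
    0 ≤ colourFun Q a L col i x := by
  rw [colourFun]
  split_ifs
  exacts [trickWeight_nonneg _ _ _, le_rfl]

theorem sum_colourFun {r : ℕ} (Q a L : ℕ) (col : ℕ → Fin r) {M : ℕ} (x : ZMod M) :
    ∑ i, colourFun Q a L col i x = intervalWeight Q a L x := by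
  simp only [colourFun, intervalWeight, ite_and]
  split_ifs <;> simp

theorem colourFun_le {r : ℕ} (Q a L : ℕ) (col : ℕ → Fin r) {M : ℕ} (i : Fin r) (x : ZMod M) :
    colourFun Q a L col i x ≤ intervalWeight Q a L x := by
  rw [← sum_colourFun Q a L col x]
  exact single_le_sum (fun j _ => colourFun_nonneg Q a L col j x) (mem_univ i)

theorem of_colourFun_ne_zero {r : ℕ} {Q a L : ℕ} {col : ℕ → Fin r} {M : ℕ} {i : Fin r}
    {x : ZMod M} (h : colourFun Q a L col i x ≠ 0) :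
    (1 ≤ x.val ∧ x.val ≤ L) ∧ (Q * x.val + a).Prime ∧ col (Q * x.val + a) = i := by
  rw [colourFun] at h
  split_ifs at h with h'
  · refine ⟨mem_Icc.1 h'.1, ?_, h'.2⟩
    by_contra hp
    exact h (by rw [trickWeight, if_neg hp, mul_zero])
  · exact absurd rfl h

/-- An element with a character near `1` is a small integer. -/
theorem exists_small_rep {M : ℕ} [NeZero M] {b : ZMod M} {ε : ℝ} (h : ‖zchar b - 1‖ ≤ ε) :
    ∃ j : ℤ, (j : ZMod M) = b ∧ j.natAbs ≤ ⌈ε * M / 4⌉₊ := by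
  have hM : (0 : ℝ) < M := Nat.cast_pos.2 (Nat.pos_of_ne_zero (NeZero.ne M))
  refine ⟨(b.val : ℤ) - round ((b.val : ℝ) / M) * M, ?_, ?_⟩
  · push_cast
    rw [ZMod.natCast_self, mul_zero, sub_zero, ZMod.natCast_zmod_val]
  · rw [← Nat.cast_le (α := ℝ), Nat.cast_natAbs, Int.cast_abs]
    refine le_trans ?_ (Nat.le_ceil _)
    have h1 := (ThreePrimes.four_nearDist_le ((b.val : ℝ) / M)).trans h
    rw [nearDist] at h1
    push_cast
    rw [show (b.val : ℝ) - round ((b.val : ℝ) / M) * M =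
      ((b.val : ℝ) / M - round ((b.val : ℝ) / M)) * M by field_simp, abs_mul, abs_of_pos hM]
    linarith [mul_le_mul_of_nonneg_right h1 hM.le]

/-- Smoothing over small integers leaves the inside of an interval alone. -/
theorem smooth_interval {M L D : ℕ} [NeZero M] {B : Finset (ZMod M)} (hB : B.Nonempty)
    (hrep : ∀ b ∈ B, ∃ j : ℤ, (j : ZMod M) = b ∧ j.natAbs ≤ D) (hLM : L < M) {m : ℕ}
    (h1 : 2 * D + 1 ≤ m) (h2 : m + 2 * D ≤ L) :
    smooth B (fun x : ZMod M => if x.val ∈ Icc 1 L then (1 : ℝ) else 0) (m : ZMod M) = 1 := by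
  rw [smooth, sum_congr rfl fun y hy => sum_congr rfl fun z hz => if_pos ?_]
  · simp only [sum_const, nsmul_eq_mul, mul_one, sq]
    exact div_self (mul_ne_zero (Nat.cast_ne_zero.2 hB.card_pos.ne')
      (Nat.cast_ne_zero.2 hB.card_pos.ne'))
  · obtain ⟨j, rfl, hj⟩ := hrep y hy
    obtain ⟨k, rfl, hk⟩ := hrep z hz
    obtain ⟨n, hn⟩ : ∃ n : ℕ, (n : ℤ) = (m : ℤ) - j + k :=
      ⟨((m : ℤ) - j + k).toNat, Int.toNat_of_nonneg (by omega)⟩
    have e : (m : ZMod M) - (j : ZMod M) + (k : ZMod M) = (n : ZMod M) := by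
      rw [← Int.cast_natCast n, hn]
      push_cast
      ring
    rw [e, ZMod.val_cast_of_lt (by omega), mem_Icc]
    omega

/-- The triples of one colour counted in the variables. -/
def goodPairs {r : ℕ} (Q a e N : ℕ) (col : ℕ → Fin r) : Finset (ℕ × ℕ) :=
  ((range (N + 1)) ×ˢ (range (N + 1))).filter fun z =>
    (Q * z.1 + a).Prime ∧ (Q * z.2 + a).Prime ∧ (Q * (z.1 + z.2 + e) + a).Prime ∧
      Q * (z.1 + z.2 + e) + a ≤ N ∧ col (Q * z.1 + a) = col (Q * (z.1 + z.2 + e) + a) ∧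
        col (Q * z.2 + a) = col (Q * (z.1 + z.2 + e) + a)

/-- **The count in one class.** -/
theorem exists_class_count (r : ℕ) : ∃ Q : ℕ, 2 ≤ Q ∧ ∀ a : ℕ, a < Q → a.Coprime Q →
    ∀ e : ℕ, e ≤ 1 → ∃ c : ℝ, 0 < c ∧ ∃ N₀ : ℕ, ∀ col : ℕ → Fin r, ∀ N : ℕ, N₀ ≤ N →
      c * ((N : ℝ) ^ 2 / Real.log N ^ 3) ≤ ((goodPairs Q a e N col).card : ℝ) := by
  rcases Nat.eq_zero_or_pos r with rfl | hr
  · exact ⟨2, le_rfl, fun _ _ _ _ _ => ⟨1, one_pos, 0, fun col => (col 0).elim0⟩⟩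
  obtain ⟨R, hR⟩ : ∃ R, R = bound r + 1 := ⟨_, rfl⟩
  have hr1 : (1 : ℝ) ≤ r := Nat.one_le_cast.2 hr
  have hR1 : (1 : ℝ) ≤ R := Nat.one_le_cast.2 (by omega)
  obtain ⟨ε, hε⟩ : ∃ ε : ℝ, ε = 1 / (8192 * (R : ℝ) ^ 3 * (r : ℝ) ^ 4) := ⟨_, rfl⟩
  have hε0 : 0 < ε := hε ▸ by positivity
  have hεR : ε * (8192 * (R : ℝ) ^ 3 * (r : ℝ) ^ 4) = 1 := by
    rw [hε, one_div_mul_cancel]
    positivity
  have hεR2 : ε * (8192 * (R : ℝ) ^ 2) ≤ 1 := by
    refine le_trans (mul_le_mul_of_nonneg_left ?_ hε0.le) hεR.le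
    rw [mul_assoc]
    refine mul_le_mul_of_nonneg_left ?_ (by norm_num)
    calc (R : ℝ) ^ 2 = (R : ℝ) ^ 2 * 1 := (mul_one _).symm
      _ ≤ (R : ℝ) ^ 3 * (r : ℝ) ^ 4 := mul_le_mul (pow_le_pow_right₀ hR1 (by norm_num))
          (one_le_pow₀ hr1) zero_le_one (by positivity)
  have hε1 : ε ≤ 1 / 8192 := by nlinarith [one_le_pow₀ (n := 2) hR1]
  obtain ⟨Aexp, C, hC, hmom⟩ := DenseThreePrimes.exists_zhat_moment
  obtain ⟨η, hη0, htr⟩ := exists_schur_transference hC hε0 (by linarith) r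
  obtain ⟨W, hW⟩ : ∃ W, W = ⌈8 / η⌉₊ + 2 := ⟨_, rfl⟩
  have hWη : 8 ≤ η * W := by
    rw [mul_comm, ← div_le_iff₀ hη0, hW]
    push_cast
    linarith [Nat.le_ceil (8 / η)]
  obtain ⟨Q, hQ⟩ : ∃ Q, Q = primorial W := ⟨_, rfl⟩
  have hQ2 : 2 ≤ Q := Nat.le_of_dvd (hQ ▸ primorial_pos W)
    (hQ ▸ (Nat.Prime.dvd_primorial_iff Nat.prime_two).2 (by omega))
  have hWQ : ∀ p : ℕ, p.Prime → p ≤ W → p ∣ Q := fun p hp hpW =>
    hQ ▸ (Nat.Prime.dvd_primorial_iff hp).2 hpW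
  refine ⟨Q, hQ2, fun a haQ ha e he => ?_⟩
  have hQ0 : 0 < Q := by omega
  obtain ⟨L₀, hL₀⟩ := eventually_atTop.1
    ((DenseThreePrimes.eventually_isTrickMajorant Aexp hQ0 haQ ha).and
      (DenseThreePrimes.eventually_trick_fourier hQ0 haQ ha hWQ hη0 hWη))
  obtain ⟨κ, hκ⟩ : ∃ κ : ℝ, κ = 1 / (128 * (R : ℝ) ^ 3 * (r : ℝ) ^ 3) := ⟨_, rfl⟩
  have hκ0 : 0 < κ := hκ ▸ by positivity
  refine ⟨κ / (256 * (Q : ℝ) ^ 2), by positivity, Q * (L₀ + 100 * R ^ 2 + 8) + 4,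
    fun col N hN => ?_⟩
  obtain ⟨L, hL⟩ : ∃ L, L = N / Q - 1 := ⟨_, rfl⟩
  have hdiv : L₀ + 100 * R ^ 2 + 8 ≤ N / Q :=
    (Nat.le_div_iff_mul_le hQ0).2 (by rw [mul_comm]; omega)
  have hLbig : L₀ ≤ L ∧ 100 * R ^ 2 ≤ L ∧ 7 ≤ L := by omega
  have hQL : Q * L + a < N ∧ N < Q * (L + 2) := by
    have h1 := Nat.div_add_mod N Q
    have h2 := Nat.mod_lt N hQ0
    rw [show N / Q = L + 1 by omega, Nat.mul_add, Nat.mul_one] at h1
    rw [Nat.mul_add]
    omega
  have hLN : L + 1 ≤ N := by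
    have : L + 1 = N / Q := by omega
    rw [this]
    exact Nat.div_le_self N Q
  obtain ⟨M, hMp, hML, hM4⟩ := Nat.exists_prime_lt_and_le_two_mul (2 * L + 2) (by omega)
  have : NeZero M := ⟨hMp.ne_zero⟩
  have hLM : L < M := by omega
  obtain ⟨l, hl⟩ : ∃ l, l = Real.log N := ⟨_, rfl⟩
  rw [← hl]
  have hl0 : 0 < l := hl ▸ Real.log_pos (Nat.one_lt_cast.2 (by omega))
  obtain ⟨f, hf⟩ : ∃ f : Fin r → ZMod M → ℝ, f = fun i => colourFun Q a L col i := ⟨_, rfl⟩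
  have hf0 : ∀ i x, 0 ≤ f i x := fun i x => hf ▸ colourFun_nonneg Q a L col i x
  have hfν : ∀ i x, f i x ≤ intervalWeight Q a L x := fun i x => hf ▸ colourFun_le Q a L col i x
  obtain ⟨B, hB, hBchar, hBlow, hBcount⟩ := htr M f (intervalWeight Q a L)
    (fun x => if x.val ∈ Icc 1 L then 1 else 0) (fun i x => ⟨hf0 i x, hfν i x⟩)
    (fun x => by split_ifs <;> norm_num)
    (fun t => by
      rw [show intervalWeight Q a L = fun x : ZMod M =>
          if x.val ∈ Icc 1 L then trickWeight Q a x.val else 0 from rfl,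
        DenseThreePrimes.zhat_interval hLM, DenseThreePrimes.zhat_interval hLM fun _ => 1]
      simp only [Complex.ofReal_one, one_mul]
      exact ((hL₀ L hLbig.1).2 _).trans
        (mul_le_mul_of_nonneg_left (Nat.cast_le.2 hLM.le) hη0.le))
    (fun i => hmom M (trickWeight Q a) (f i) (hL₀ M (by omega)).1 (hf0 i) fun k hk => by
      refine (hfν i _).trans ?_
      rw [intervalWeight]
      split_ifs with h'
      · rw [ZMod.val_cast_of_lt ((mem_Icc.1 hk).2.lt_of_ne ?_)]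
        rintro rfl
        simp at h'
      · exact trickWeight_nonneg _ _ _)
  obtain ⟨g, hg⟩ : ∃ g : Fin r → ZMod M → ℝ, g = fun i => smooth B (f i) := ⟨_, rfl⟩
  have hg0 : ∀ i x, 0 ≤ g i x := fun i x => by
    rw [hg]
    exact div_nonneg (sum_nonneg fun y _ => sum_nonneg fun z _ => hf0 i _) (sq_nonneg _)
  have hgsum : ∀ x, ∑ i, g i x = smooth B (intervalWeight Q a L) x := fun x => by
    simp only [hg, smooth, ← sum_div]
    rw [sum_comm, sum_congr rfl fun y _ => sum_comm]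
    simp only [hf, sum_colourFun]
  obtain ⟨D, hD⟩ : ∃ D, D = ⌈ε * M / 4⌉₊ := ⟨_, rfl⟩
  obtain ⟨χ, hχ⟩ : ∃ χ : ℕ → Fin r, ∀ (m : ℕ) (i : Fin r),
      g i (m : ZMod M) ≤ g (χ m) (m : ZMod M) := by
    have h : ∀ m : ℕ, ∃ j : Fin r, ∀ i, g i (m : ZMod M) ≤ g j (m : ZMod M) := fun m => by
      obtain ⟨j, -, hj⟩ := exists_max_image (univ : Finset (Fin r)) (fun i => g i (m : ZMod M))
        ⟨⟨0, hr⟩, mem_univ _⟩
      exact ⟨j, fun i => hj i (mem_univ i)⟩
    choose χ hχ using h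
    exact ⟨χ, hχ⟩
  have hχlow : ∀ m, 2 * D + 1 ≤ m → m + 2 * D ≤ L → 1 / (2 * (r : ℝ)) ≤ g (χ m) (m : ZMod M) := by
    intro m h1 h2
    have h3 := hBlow (m : ZMod M)
    rw [smooth_interval hB (fun b hb => hD ▸ exists_small_rep (hBchar b hb)) hLM h1 h2,
      ← hgsum] at h3
    have h4 : ∑ i, g i (m : ZMod M) ≤ r * g (χ m) (m : ZMod M) := by
      refine (sum_le_card_nsmul _ _ _ fun i _ => hχ m i).trans_eq ?_
      rw [card_univ, Fintype.card_fin, nsmul_eq_mul]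
    rw [div_le_iff₀ (by positivity)]
    linarith
  have hDle : (D : ℝ) ≤ ε * M / 4 + 1 := by
    rw [hD]
    exact (Nat.ceil_lt_add_one (by positivity)).le
  have hML' : (M : ℝ) ≤ 8 * L := by exact_mod_cast (show M ≤ 8 * L by omega)
  have hLR : 100 * (R : ℝ) ^ 2 ≤ L := by exact_mod_cast hLbig.2.1
  have hD2 : (D : ℝ) ≤ 2 * (ε * L) + 1 := by
    have := mul_le_mul_of_nonneg_left hML' hε0.le
    linarith
  have hεL : ε * L * (R : ℝ) ^ 2 ≤ L / 8192 := by
    have := mul_le_mul_of_nonneg_right hεR2 (Nat.cast_nonneg (α := ℝ) L)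
    linarith
  have hεL1 : ε * L ≤ L / 8192 := by
    have := mul_le_mul_of_nonneg_right hε1 (Nat.cast_nonneg (α := ℝ) L)
    linarith
  have hR21 : (1 : ℝ) ≤ (R : ℝ) ^ 2 := one_le_pow₀ hR1
  have h4D : 4 * D ≤ L := by
    rw [← Nat.cast_le (α := ℝ)]
    push_cast
    linarith
  obtain ⟨ℓ, hℓ⟩ : ∃ ℓ, ℓ = L - 2 * D + 1 := ⟨_, rfl⟩
  have hℓ2 : L ≤ 2 * ℓ := by omega
  have hθ : 2 * R ^ 2 * (2 * (2 * D + 1 + e) + 1) ≤ ℓ := by
    refine Nat.le_of_add_le_add_right (b := 2 * D) ?_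
    rw [show ℓ + 2 * D = L + 1 by omega]
    refine le_trans (Nat.add_le_add_right (Nat.mul_le_mul_left _
      (show 2 * (2 * D + 1 + e) + 1 ≤ 4 * D + 5 by omega)) _) ?_
    rw [← Nat.cast_le (α := ℝ)]
    push_cast
    have h5 : (D : ℝ) * (R : ℝ) ^ 2 ≤ (2 * (ε * L) + 1) * (R : ℝ) ^ 2 :=
      mul_le_mul_of_nonneg_right hD2 (by positivity)
    linarith
  have hpairs := card_monochromatic_pairs χ (θ := 2 * D + 1) (e := e) (ℓ := ℓ) (by rwa [← hR])
  rw [← hR] at hpairs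
  obtain ⟨P, hP⟩ : ∃ P, P = ((range ℓ) ×ˢ (range ℓ)).filter fun z : ℕ × ℕ =>
      2 * D + 1 ≤ z.1 ∧ 2 * D + 1 ≤ z.2 ∧ z.1 + z.2 + e < ℓ ∧
        χ z.1 = χ (z.1 + z.2 + e) ∧ χ z.2 = χ (z.1 + z.2 + e) := ⟨_, rfl⟩
  rw [← hP] at hpairs
  have hlow : (P.card : ℝ) * (1 / (2 * (r : ℝ))) ^ 3 ≤ ∑ i, schurCount (g i) (e : ZMod M) := by
    simp only [schurCount]
    rw [sum_comm, sum_congr rfl fun x _ => sum_comm, ← Fintype.sum_prod_type'
      (f := fun x y : ZMod M => ∑ i, g i x * g i y * g i (x + y + (e : ZMod M))), ← nsmul_eq_mul]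
    refine le_trans ?_ (sum_le_sum_of_subset_of_nonneg
      (s := P.image fun z => ((z.1 : ZMod M), (z.2 : ZMod M))) (subset_univ _) fun z _ _ =>
        sum_nonneg fun i _ => mul_nonneg (mul_nonneg (hg0 _ _) (hg0 _ _)) (hg0 _ _))
    rw [sum_image ?_]
    · refine card_nsmul_le_sum P _ _ fun z hz => ?_
      simp only [hP, mem_filter, mem_product, mem_range] at hz
      obtain ⟨-, h1, h2, h3, h4, h5⟩ := hz
      refine le_trans ?_ (single_le_sum (fun i _ =>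
        mul_nonneg (mul_nonneg (hg0 i _) (hg0 i _)) (hg0 i _)) (mem_univ (χ (z.1 + z.2 + e))))
      have b1 := hχlow z.1 h1 (by omega)
      have b2 := hχlow z.2 h2 (by omega)
      have b3 := hχlow (z.1 + z.2 + e) (by omega) (by omega)
      rw [h4] at b1
      rw [h5] at b2
      push_cast at b3
      rw [pow_succ, sq]
      exact mul_le_mul (mul_le_mul b1 b2 (by positivity) (hg0 _ _)) b3 (by positivity)
        (mul_nonneg (hg0 _ _) (hg0 _ _))
    · intro z hz w hw hzw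
      simp only [hP, mem_coe, mem_filter, mem_product, mem_range] at hz hw
      simp only [Prod.mk.injEq] at hzw
      have a1 := congrArg ZMod.val hzw.1
      have a2 := congrArg ZMod.val hzw.2
      rw [ZMod.val_cast_of_lt (by omega), ZMod.val_cast_of_lt (by omega)] at a1 a2
      exact Prod.ext a1 a2
  have hfcount : κ * (L : ℝ) ^ 2 ≤ ∑ i, schurCount (f i) (e : ZMod M) := by
    have h1 : ∑ i, schurCount (g i) (e : ZMod M) ≤
        ∑ i, schurCount (f i) (e : ZMod M) + r * (ε * (M : ℝ) ^ 2) := by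
      rw [hg]
      refine (sum_le_sum fun i _ => hBcount i (e : ZMod M)).trans_eq ?_
      rw [sum_add_distrib, sum_const, card_univ, Fintype.card_fin, nsmul_eq_mul]
    have h2 : (L : ℝ) ^ 2 ≤ 4 * (2 * (R : ℝ) ^ 3 * P.card) := by
      have a1 : ((ℓ ^ 2 : ℕ) : ℝ) ≤ ((2 * R ^ 3 * P.card : ℕ) : ℝ) := Nat.cast_le.2 hpairs
      have a2 : (L : ℝ) ≤ 2 * (ℓ : ℝ) := by exact_mod_cast hℓ2
      push_cast at a1
      calc (L : ℝ) ^ 2 ≤ (2 * (ℓ : ℝ)) ^ 2 := pow_le_pow_left₀ (Nat.cast_nonneg L) a2 2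
        _ ≤ _ := by linarith
    have h3 : 2 * κ * (L : ℝ) ^ 2 ≤ (P.card : ℝ) * (1 / (2 * (r : ℝ))) ^ 3 := by
      refine (mul_le_mul_of_nonneg_left h2 (by positivity)).trans (le_of_eq ?_)
      rw [hκ]
      field_simp
      ring
    have h4 : (r : ℝ) * (ε * (M : ℝ) ^ 2) ≤ κ * (L : ℝ) ^ 2 := by
      calc (r : ℝ) * (ε * (M : ℝ) ^ 2) ≤ r * (ε * (8 * (L : ℝ)) ^ 2) := by gcongr
        _ = _ := by
          rw [hκ, hε]
          field_simp
          ring
    linarith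
  have hw : ∀ x : ZMod M, intervalWeight Q a L x ≤ 4 * l := fun x => by
    rw [intervalWeight]
    split_ifs with h'
    · refine ((hL₀ M (by omega)).1.le_log _ (mem_Icc.2
        ⟨(mem_Icc.1 h').1, (ZMod.val_lt x).le⟩)).trans ?_
      have h6 : Real.log M ≤ Real.log ((N : ℝ) ^ 2) := by
        refine Real.log_le_log (Nat.cast_pos.2 hMp.pos) ?_
        have : M ≤ 4 * N := by omega
        exact_mod_cast this.trans (by rw [sq]; exact Nat.mul_le_mul_right N (by omega))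
      rw [Real.log_pow, ← hl] at h6
      push_cast at h6
      linarith
    · positivity
  obtain ⟨Z, hZ⟩ : ∃ Z : Finset (ZMod M × ZMod M), Z = univ.filter fun z =>
      ∑ i, f i z.1 * f i z.2 * f i (z.1 + z.2 + (e : ZMod M)) ≠ 0 := ⟨_, rfl⟩
  have hTZ : ∑ i, schurCount (f i) (e : ZMod M) ≤ Z.card * (4 * l) ^ 3 := by
    simp only [schurCount]
    rw [sum_comm, sum_congr rfl fun x _ => sum_comm, ← Fintype.sum_prod_type'
      (f := fun x y : ZMod M => ∑ i, f i x * f i y * f i (x + y + (e : ZMod M))),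
      ← sum_filter_ne_zero, ← hZ, ← nsmul_eq_mul]
    refine sum_le_card_nsmul _ _ _ fun z _ => ?_
    calc ∑ i, f i z.1 * f i z.2 * f i (z.1 + z.2 + (e : ZMod M))
        ≤ ∑ i, f i z.1 * (4 * l) * (4 * l) := sum_le_sum fun i _ =>
          mul_le_mul (mul_le_mul_of_nonneg_left ((hfν i _).trans (hw _)) (hf0 i _))
            ((hfν i _).trans (hw _)) (hf0 i _) (mul_nonneg (hf0 i _) (by positivity))
      _ = intervalWeight Q a L z.1 * (4 * l) * (4 * l) := by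
          rw [← sum_mul, ← sum_mul, hf, sum_colourFun]
      _ ≤ _ := by
          rw [pow_succ, sq]
          gcongr
          exact hw _
  have hZT : Z.card ≤ (goodPairs Q a e N col).card := by
    refine card_le_card_of_injOn (fun z => (z.1.val, z.2.val)) (fun z hz => ?_)
      (fun z _ w _ h => Prod.ext (ZMod.val_injective M (congrArg Prod.fst h))
        (ZMod.val_injective M (congrArg Prod.snd h)))
    simp only [mem_coe, hZ, mem_filter, mem_univ, true_and] at hz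
    obtain ⟨i, -, hi⟩ := exists_ne_zero_of_sum_ne_zero hz
    simp only [mul_ne_zero_iff, hf] at hi
    obtain ⟨⟨⟨hx1, hx2⟩, px, cx⟩, ⟨⟨hy1, hy2⟩, py, cy⟩, ⟨⟨hw1, hw2⟩, pw, cw⟩⟩ :=
      And.intro (of_colourFun_ne_zero hi.1.1) (And.intro (of_colourFun_ne_zero hi.1.2)
        (of_colourFun_ne_zero hi.2))
    have ev : (z.1 + z.2 + (e : ZMod M)).val = z.1.val + z.2.val + e := by
      conv_lhs => rw [← ZMod.natCast_zmod_val z.1, ← ZMod.natCast_zmod_val z.2, ← Nat.cast_add,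
        ← Nat.cast_add]
      exact ZMod.val_cast_of_lt (by omega)
    rw [ev] at hw1 hw2 pw cw
    simp only [goodPairs, mem_coe, mem_filter, mem_product, mem_range]
    have hQw := Nat.mul_le_mul_left Q hw2
    exact ⟨⟨by omega, by omega⟩, px, py, pw, by omega, cx.trans cw.symm, cy.trans cw.symm⟩
  have hfinal := (hfcount.trans hTZ).trans (mul_le_mul_of_nonneg_right (Nat.cast_le.2 hZT)
    (pow_nonneg (by positivity) 3))
  have hNL : (N : ℝ) ≤ 2 * Q * L := by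
    have h7 : N ≤ 2 * Q * L := by
      have : Q * (L + 2) ≤ 2 * Q * L := by nlinarith
      omega
    exact_mod_cast h7
  have h9 : κ * ((N : ℝ) / (2 * Q)) ^ 2 ≤ (goodPairs Q a e N col).card * (4 * l) ^ 3 := by
    refine le_trans (mul_le_mul_of_nonneg_left (pow_le_pow_left₀ (by positivity) ?_ 2) hκ0.le)
      hfinal
    rw [div_le_iff₀ (by positivity)]
    linarith
  rw [← div_le_iff₀ (by positivity)] at h9
  refine le_trans (le_of_eq ?_) h9
  field_simp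
  ring

/-- The monochromatic prime triples with `p + q = t + 1`. -/
def plusTriples {r : ℕ} (N : ℕ) (col : ℕ → Fin r) : Finset (ℕ × ℕ × ℕ) :=
  ((range (N + 1)) ×ˢ (range (N + 1)) ×ˢ (range (N + 1))).filter fun z =>
    z.1.Prime ∧ z.2.1.Prime ∧ z.2.2.Prime ∧ z.1 + z.2.1 = z.2.2 + 1 ∧
      col z.1 = col z.2.2 ∧ col z.2.1 = col z.2.2

/-- The monochromatic prime triples with `p + q + 1 = t`. -/
def minusTriples {r : ℕ} (N : ℕ) (col : ℕ → Fin r) : Finset (ℕ × ℕ × ℕ) :=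
  ((range (N + 1)) ×ˢ (range (N + 1)) ×ˢ (range (N + 1))).filter fun z =>
    z.1.Prime ∧ z.2.1.Prime ∧ z.2.2.Prime ∧ z.1 + z.2.1 + 1 = z.2.2 ∧
      col z.1 = col z.2.2 ∧ col z.2.1 = col z.2.2

/-- **Many monochromatic `p + q = t + 1`.** -/
theorem exists_plus_count (r : ℕ) : ∃ c : ℝ, 0 < c ∧ ∃ N₀ : ℕ, ∀ col : ℕ → Fin r, ∀ N : ℕ,
    N₀ ≤ N → c * ((N : ℝ) ^ 2 / Real.log N ^ 3) ≤ ((plusTriples N col).card : ℝ) := by
  obtain ⟨Q, hQ, h⟩ := exists_class_count r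
  obtain ⟨c, hc, N₀, hN₀⟩ := h 1 (by omega) (Nat.coprime_one_left Q) 0 zero_le_one
  refine ⟨c, hc, N₀, fun col N hN => (hN₀ col N hN).trans (Nat.cast_le.2 ?_)⟩
  refine card_le_card_of_injOn (fun z => (Q * z.1 + 1, Q * z.2 + 1, Q * (z.1 + z.2 + 0) + 1))
    (fun z hz => ?_) (fun z _ w _ h => ?_)
  · simp only [goodPairs, mem_coe, mem_filter, mem_product, mem_range] at hz
    obtain ⟨-, h1, h2, h3, h4, h5, h6⟩ := hz
    simp only [plusTriples, mem_coe, mem_filter, mem_product, mem_range]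
    have e1 : Q * (z.1 + z.2 + 0) = Q * z.1 + Q * z.2 := by ring
    exact ⟨⟨by omega, by omega, by omega⟩, h1, h2, h3, by omega, h5, h6⟩
  · simp only [Prod.mk.injEq, Nat.add_right_cancel_iff] at h
    exact Prod.ext (Nat.eq_of_mul_eq_mul_left (by omega) h.1)
      (Nat.eq_of_mul_eq_mul_left (by omega) h.2.1)

/-- **Many monochromatic `p + q + 1 = t`.** -/
theorem exists_minus_count (r : ℕ) : ∃ c : ℝ, 0 < c ∧ ∃ N₀ : ℕ, ∀ col : ℕ → Fin r, ∀ N : ℕ,
    N₀ ≤ N → c * ((N : ℝ) ^ 2 / Real.log N ^ 3) ≤ ((minusTriples N col).card : ℝ) := by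
  obtain ⟨Q, hQ, h⟩ := exists_class_count r
  obtain ⟨c, hc, N₀, hN₀⟩ := h (Q - 1) (by omega)
    ((Nat.coprime_self_sub_left (show 1 ≤ Q by omega)).2 (Nat.coprime_one_left Q)) 1 le_rfl
  refine ⟨c, hc, N₀, fun col N hN => (hN₀ col N hN).trans (Nat.cast_le.2 ?_)⟩
  refine card_le_card_of_injOn (fun z => (Q * z.1 + (Q - 1), Q * z.2 + (Q - 1),
    Q * (z.1 + z.2 + 1) + (Q - 1))) (fun z hz => ?_) (fun z _ w _ h => ?_)
  · simp only [goodPairs, mem_coe, mem_filter, mem_product, mem_range] at hz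
    obtain ⟨-, h1, h2, h3, h4, h5, h6⟩ := hz
    simp only [minusTriples, mem_coe, mem_filter, mem_product, mem_range]
    have e1 : Q * (z.1 + z.2 + 1) = Q * z.1 + Q * z.2 + Q := by ring
    exact ⟨⟨by omega, by omega, by omega⟩, h1, h2, h3, by omega, h5, h6⟩
  · simp only [Prod.mk.injEq, Nat.add_right_cancel_iff] at h
    exact Prod.ext (Nat.eq_of_mul_eq_mul_left (by omega) h.1)
      (Nat.eq_of_mul_eq_mul_left (by omega) h.2.1)

/-- A count that grows gives a triple above any bound, by colouring the small numbers one each. -/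
theorem exists_triple_large {ι : Type*} [Finite ι] (col : ℕ → ι) (m : ℕ) :
    (∃ p q t : ℕ, p.Prime ∧ q.Prime ∧ t.Prime ∧ m < p ∧ m < q ∧ m < t ∧ p + q = t + 1 ∧
      col p = col t ∧ col q = col t) ∧
    (∃ p q t : ℕ, p.Prime ∧ q.Prime ∧ t.Prime ∧ m < p ∧ m < q ∧ m < t ∧ p + q + 1 = t ∧
      col p = col t ∧ col q = col t) := by
  classical
  have := Fintype.ofFinite ι
  obtain ⟨r, ⟨E⟩⟩ : ∃ r, Nonempty ((ι ⊕ Fin (m + 1)) ≃ Fin r) := ⟨_, ⟨Fintype.equivFin _⟩⟩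
  obtain ⟨χ, hχ⟩ : ∃ χ : ℕ → Fin r, χ = fun p =>
      if h : p ≤ m then E (Sum.inr ⟨p, Nat.lt_succ_of_le h⟩) else E (Sum.inl (col p)) := ⟨_, rfl⟩
  have key : ∀ p q t : ℕ, p.Prime → t.Prime → (p + q = t + 1 ∨ p + q + 1 = t) →
      χ p = χ t → χ q = χ t → (m < p ∧ m < q ∧ m < t) ∧ col p = col t ∧ col q = col t := by
    intro p q t hp ht he h1 h2
    have := hp.two_le
    have := ht.two_le
    simp only [hχ] at h1 h2
    split_ifs at h1 h2 <;> simp only [EmbeddingLike.apply_eq_iff_eq, Sum.inl.injEq, Sum.inr.injEq,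
      reduceCtorEq, Fin.mk.injEq] at h1 h2
    · omega
    · exact ⟨⟨by omega, by omega, by omega⟩, h1, h2⟩
  constructor
  · obtain ⟨c, hc, N₀, hN₀⟩ := exists_plus_count r
    have h := hN₀ χ (N₀ + 2) (by omega)
    have hpos : 0 < (plusTriples (N₀ + 2) χ).card := by
      rw [← Nat.cast_pos (α := ℝ)]
      refine lt_of_lt_of_le ?_ h
      have : 0 < Real.log ((N₀ + 2 : ℕ) : ℝ) := Real.log_pos (Nat.one_lt_cast.2 (by omega))
      positivity
    obtain ⟨⟨p, q, t⟩, hz⟩ := card_pos.1 hpos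
    simp only [plusTriples, mem_filter] at hz
    obtain ⟨-, hp, hq, ht, he, h1, h2⟩ := hz
    obtain ⟨⟨a1, a2, a3⟩, a4, a5⟩ := key p q t hp ht (Or.inl he) h1 h2
    exact ⟨p, q, t, hp, hq, ht, a1, a2, a3, he, a4, a5⟩
  · obtain ⟨c, hc, N₀, hN₀⟩ := exists_minus_count r
    have h := hN₀ χ (N₀ + 2) (by omega)
    have hpos : 0 < (minusTriples (N₀ + 2) χ).card := by
      rw [← Nat.cast_pos (α := ℝ)]
      refine lt_of_lt_of_le ?_ h
      have : 0 < Real.log ((N₀ + 2 : ℕ) : ℝ) := Real.log_pos (Nat.one_lt_cast.2 (by omega))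
      positivity
    obtain ⟨⟨p, q, t⟩, hz⟩ := card_pos.1 hpos
    simp only [minusTriples, mem_filter] at hz
    obtain ⟨-, hp, hq, ht, he, h1, h2⟩ := hz
    obtain ⟨⟨a1, a2, a3⟩, a4, a5⟩ := key p q t hp ht (Or.inr he) h1 h2
    exact ⟨p, q, t, hp, hq, ht, a1, a2, a3, he, a4, a5⟩

/-- **No other shift works**: if `s` is not `±1`, a colouring by residues leaves at most the
solution `p = q = t = s`. -/
theorem exists_colouring_of_ne {s : ℤ} (h1 : s ≠ 1) (h2 : s ≠ -1) :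
    ∃ r : ℕ, ∃ col : ℕ → Fin r, ∀ p q t : ℕ, p.Prime → q.Prime → t.Prime →
      (p : ℤ) + q = t + s → col p = col t → col q = col t → p = q ∧ q = t ∧ (t : ℤ) = s := by
  obtain ⟨d, hd, hds⟩ : ∃ d : ℕ, d.Prime ∧ (d : ℤ) ∣ s := by
    rcases eq_or_ne s 0 with rfl | hs
    · exact ⟨2, Nat.prime_two, dvd_zero _⟩
    · obtain ⟨d, hd, hdvd⟩ := Nat.exists_prime_and_dvd (show s.natAbs ≠ 1 by omega)
      exact ⟨d, hd, Int.natCast_dvd.2 hdvd⟩
  have : NeZero d := ⟨hd.ne_zero⟩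
  refine ⟨d, fun p => Fin.ofNat d p, fun p q t hp hq ht he e1 e2 => ?_⟩
  have e1' : ((p : ZMod d)) = t := (ZMod.natCast_eq_natCast_iff' _ _ _).2 (congrArg Fin.val e1)
  have e2' : ((q : ZMod d)) = t := (ZMod.natCast_eq_natCast_iff' _ _ _).2 (congrArg Fin.val e2)
  have h0 : ((t : ZMod d)) = 0 := by
    have hs0 : ((s : ℤ) : ZMod d) = 0 := (ZMod.intCast_zmod_eq_zero_iff_dvd s d).2 hds
    have h := congrArg (fun z : ℤ => (z : ZMod d)) he
    push_cast at h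
    rw [e1', e2', hs0, add_zero, add_eq_left] at h
    exact h
  have heq : ∀ u : ℕ, u.Prime → (u : ZMod d) = 0 → d = u := fun u hu h =>
    (Nat.prime_dvd_prime_iff_eq hd hu).1 ((ZMod.natCast_eq_zero_iff u d).1 h)
  have a1 := heq p hp (e1'.trans h0)
  have a2 := heq q hq (e2'.trans h0)
  have a3 := heq t ht h0
  omega

end FA.SchurPrimes
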